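import Fermat.Agent.DS.Field.Series
import Fermat.Agent.ES.Forms.Classes

/-!
# Conjugates of forms of weight one

The square of the form has a conjugate of weight two, whose square root with the conjugate series
is invariant under `Γ₁(N)` up to sign; the sign is trivial on `Γ₁(N) ∩ Γ(3)` because the product
with the theta series has a conjugate as well, and `Γ₁(N)` is generated by this group,
`(1, 1; 0, 1)` and `(1, 0; N, 1)`.
-/

set_option autoImplicit false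

noncomputable section

open UpperHalfPlane CongruenceSubgroup Filter Topology
open scoped MatrixGroups ModularForm Manifold OnePoint

namespace FermatAgent.DS

open FermatAgent.ES (HasExp HasLExp GalRel GalStable IsTwist qm mapSer)
open FermatAgent.LT.Mod3 (hexF hexF_mdiff hexF_bdd)

variable {N : ℕ}

theorem galRel_mem_gammaOne {a : ZMod N} (ha : IsUnit a) {γ γ' : SL(2, ℤ)} (h : GalRel a γ γ') :
    γ ∈ Gamma1 N ↔ γ' ∈ Gamma1 N := by
  obtain ⟨h00, -, h10, h11⟩ := h.entries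
  rw [mul_comm (γ 1 1 : ZMod N) a, ha.mul_right_inj] at h11
  rw [Gamma1_mem, Gamma1_mem, h00, h11, ← h10, ha.mul_right_eq_zero]

theorem galStable_gammaOne : GalStable N (Gamma1 N) where
  gamma_le := gamma_le_gammaOne
  stable _ ha _ _ h := galRel_mem_gammaOne ha h

theorem galStable_aux [NeZero N] : GalStable (3 * N) (auxGroup N) where
  gamma_le := le_inf ((ES.gamma_le_of_dvd (dvd_mul_left N 3)).trans gamma_le_gammaOne)
    (ES.gamma_le_of_dvd (dvd_mul_right 3 N))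
  stable a ha γ γ' h := by
    have : NeZero (3 * N) := ⟨mul_ne_zero three_ne_zero (NeZero.ne N)⟩
    obtain ⟨a, rfl⟩ := ZMod.natCast_zmod_surjective a
    have e1 := galRel_mem_gammaOne (ES.isUnit_natCast_of_dvd (dvd_mul_left N 3) ha)
      (h.of_dvd (dvd_mul_left N 3))
    have e2 := (h.of_dvd (dvd_mul_right 3 N)).mem_Gamma
      (ES.isUnit_natCast_of_dvd (dvd_mul_right 3 N) ha)
    exact and_congr e1 e2

/-- The element `(1, 0; yN, 1)`. -/
def lowGen (N y : ℕ) : SL(2, ℤ) := ⟨!![1, 0; (y * N : ℤ), 1], by simp [Matrix.det_fin_two_of]⟩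

theorem coe_lowGen (N y : ℕ) :
    (lowGen N y : Matrix (Fin 2) (Fin 2) ℤ) = !![1, 0; (y * N : ℤ), 1] := rfl

theorem lowGen_mem (y : ℕ) : lowGen N y ∈ Gamma1 N :=
  (Gamma1_mem N _).2 (by simp [coe_lowGen])

theorem lowGen_succ (y : ℕ) : lowGen N (y + 1) = lowGen N y * lowGen N 1 := by
  refine Subtype.ext ?_
  ext i j
  fin_cases i <;> fin_cases j <;>
    simp [coe_lowGen, Matrix.mul_apply, Fin.sum_univ_two]
  ring

theorem T_zpow_mem (x : ℤ) : ModularGroup.T ^ x ∈ Gamma1 N :=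
  (Gamma1_mem N _).2 (by simp [ModularGroup.coe_T_zpow])

/-- Generators of `Γ₁(N)` modulo `Γ(3)`. -/
theorem gammaOne_le {H : Subgroup SL(2, ℤ)} (hT : ModularGroup.T ∈ H) (hL : lowGen N 1 ∈ H)
    (hA : auxGroup N ≤ H) : Gamma1 N ≤ H := by
  have hTz : ∀ x : ℤ, ModularGroup.T ^ x ∈ H := fun x => zpow_mem hT x
  have hLy : ∀ y, lowGen N y ∈ H := by
    intro y
    induction y with
    | zero =>
      have : lowGen N 0 = 1 := by
        refine Subtype.ext ?_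
        ext i j
        fin_cases i <;> fin_cases j <;> simp [coe_lowGen]
      rw [this]; exact one_mem _
    | succ y ih => rw [lowGen_succ]; exact mul_mem ih hL
  have step : ∀ γ ∈ Gamma1 N, (γ 1 0 : ZMod 3) ≠ 0 → γ ∈ H := by
    intro γ hγ hc
    obtain ⟨k, hk⟩ := (ZMod.intCast_zmod_eq_zero_iff_dvd _ N).1 ((Gamma1_mem N γ).1 hγ).2.2
    have hN : (N : ZMod 3) ≠ 0 := fun h0 => hc (by rw [hk]; simp [h0])
    obtain ⟨x, hx⟩ := ZMod.intCast_surjective ((1 - (γ 0 0 : ZMod 3)) * (γ 1 0 : ZMod 3)⁻¹)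
    have hx1 : (γ 0 0 : ZMod 3) + (x : ZMod 3) * γ 1 0 = 1 := by
      rw [hx, inv_mul_cancel_right₀ hc]; ring
    obtain ⟨y, hy⟩ := ZMod.natCast_zmod_surjective (-(γ 1 0 : ZMod 3) * (N : ZMod 3)⁻¹)
    have hy1 : (γ 1 0 : ZMod 3) + (y : ZMod 3) * N = 0 := by
      rw [hy, inv_mul_cancel_right₀ hN]; ring
    set γ2 := lowGen N y * (ModularGroup.T ^ x * γ) with hγ2
    have hdet := congrArg (Int.cast : ℤ → ZMod 3) γ2.det_coe
    rw [Matrix.det_fin_two] at hdet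
    push_cast at hdet
    have e00 : (γ2 0 0 : ZMod 3) = 1 := by
      rw [← hx1]
      simp [hγ2, coe_lowGen, Matrix.SpecialLinearGroup.coe_mul, ModularGroup.coe_T_zpow,
        Matrix.mul_apply, Matrix.vecMul, dotProduct, Fin.sum_univ_two]
    have e10 : (γ2 1 0 : ZMod 3) = 0 := by
      rw [← hy1]
      simp [hγ2, coe_lowGen, Matrix.SpecialLinearGroup.coe_mul, ModularGroup.coe_T_zpow,
        Matrix.mul_apply, Matrix.vecMul, dotProduct, Fin.sum_univ_two]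
      linear_combination ((y : ZMod 3) * N) * hx1
    rw [e00, e10, mul_zero, sub_zero, one_mul] at hdet
    set γ3 := γ2 * ModularGroup.T ^ (-(γ2 0 1)) with hγ3
    have h3 : γ3 ∈ auxGroup N := by
      refine ⟨mul_mem (mul_mem (lowGen_mem y) (mul_mem (T_zpow_mem x) hγ)) (T_zpow_mem _), ?_⟩
      show γ3 ∈ Gamma 3
      rw [Gamma_mem]
      simp [hγ3, Matrix.SpecialLinearGroup.coe_mul, ModularGroup.coe_T_zpow, Matrix.mul_apply,
        Fin.sum_univ_two, e00, e10, hdet]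
    have e : γ = (ModularGroup.T ^ x)⁻¹ * ((lowGen N y)⁻¹ *
        (γ3 * (ModularGroup.T ^ (-(γ2 0 1)))⁻¹)) := by
      rw [hγ3, hγ2]; group
    rw [e]
    exact mul_mem (inv_mem (hTz x))
      (mul_mem (inv_mem (hLy y)) (mul_mem (hA h3) (inv_mem (hTz _))))
  intro γ hγ
  by_cases hc : (γ 1 0 : ZMod 3) = 0
  · have hdet := congrArg (Int.cast : ℤ → ZMod 3) γ.det_coe
    rw [Matrix.det_fin_two] at hdet
    push_cast at hdet
    rw [hc, mul_zero, sub_zero] at hdet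
    by_cases h1 : (γ 0 0 : ZMod 3) = 1
    · rw [h1, one_mul] at hdet
      have h3 : γ * ModularGroup.T ^ (-(γ 0 1)) ∈ auxGroup N := by
        refine ⟨mul_mem hγ (T_zpow_mem _), ?_⟩
        show _ ∈ Gamma 3
        rw [Gamma_mem]
        simp [Matrix.SpecialLinearGroup.coe_mul, ModularGroup.coe_T_zpow, Matrix.mul_apply,
          Fin.sum_univ_two, h1, hc, hdet]
      have := mul_mem (hA h3) (inv_mem (hTz (-(γ 0 1))))
      rwa [mul_inv_cancel_right] at this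
    · have hN : (N : ZMod 3) ≠ 0 := fun h0 => by
        obtain ⟨k, hk⟩ := (ZMod.intCast_eq_intCast_iff_dvd_sub 1 (γ 0 0) N).1
          (by simpa using ((Gamma1_mem N γ).1 hγ).1.symm)
        refine h1 ?_
        rw [show γ 0 0 = 1 + (N : ℤ) * k by linarith]
        simp [h0]
      have ha : (γ 0 0 : ZMod 3) ≠ 0 := left_ne_zero_of_mul_eq_one hdet
      have hm : lowGen N 1 * γ ∈ H := step _ (mul_mem (lowGen_mem 1) hγ) (by
        simp [coe_lowGen, Matrix.SpecialLinearGroup.coe_mul, Matrix.mul_apply, Fin.sum_univ_two, hc,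
          hN, ha])
      have := mul_mem (inv_mem hL) hm
      rwa [inv_mul_cancel_left] at this
  · exact step γ hγ hc

variable [NeZero N]

/-- The square of a form of weight one has weight two. -/
private theorem isTwist_sq_weight_one (f : CuspForm (Gamma1 N) 1) :
    IsTwist (Gamma1 N) ((2 * 1 : ℕ) : ℤ) 1 ((f : ℍ → ℂ) ^ 2) := by
  have hw : ((2 * 1 : ℕ) : ℤ) = ((2 : ℕ) : ℤ) * 1 := by norm_num
  refine ⟨(CuspFormClass.holo f).pow 2, fun γ => ?_, fun γ => ?_⟩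
  · rw [hw, ES.slash_pow, slash_eq_self' f γ.2]
    funext z; simp
  · rw [hw, ES.slash_pow, pow_two]
    exact (CuspFormClass.zero_at_infty_slash _ γ).boundedAtFilter.mul
      (CuspFormClass.zero_at_infty_slash _ γ).boundedAtFilter

/-- The conjugate of the square has a square root with the conjugate series. -/
private theorem exists_sqrt_conj_sq (f : CuspForm (Gamma1 N) 1) (hf : serOne f ≠ 0)
    {τ : ℂ ≃+* ℂ} {M : ℕ} [NeZero M] (haux : ES.AuxLevel M 3) (hNM : N ∣ M) {a : ℕ}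
    (ha : IsUnit (a : ZMod M)) (hτ : τ (ES.zetaC M) = ES.zetaC M ^ a) :
    ∃ v f2 : ℍ → ℂ, IsTwist (Gamma1 N) ((2 * 1 : ℕ) : ℤ) 1 f2 ∧
      (∀ γ γ', GalRel (a : ZMod M) γ γ' → ∀ s,
        HasLExp M (((f : ℍ → ℂ) ^ 2) ∣[((2 * 1 : ℕ) : ℤ)] γ) s →
        HasLExp M (f2 ∣[((2 * 1 : ℕ) : ℤ)] γ') (mapSer (τ : ℂ →+* ℂ) s)) ∧
      MDiff v ∧ v ^ 2 = f2 ∧ HasExp 1 v ((serOne f).map (τ : ℂ →+* ℂ)) ∧ v ≠ 0 := by
  have hM0 : M ≠ 0 := NeZero.ne M
  set A := serOne f with hA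
  set B : PowerSeries ℂ := A.map (τ : ℂ →+* ℂ) with hB
  have hB0 : B ≠ 0 := fun h0 => hf (PowerSeries.map_injective (τ : ℂ →+* ℂ) (RingHom.injective _)
    (h0.trans (map_zero _).symm))
  have hexp0 : ∀ {c : PowerSeries ℂ}, c ≠ 0 → c.expand M hM0 ≠ 0 := fun {c} hc h0 =>
    hc (PowerSeries.ext fun e => by
      rw [← PowerSeries.coeff_expand_mul M hM0 c e, h0, map_zero, map_zero])
  have hf0 : (f : ℍ → ℂ) ≠ 0 := fun h0 => hf ((hasExp_serOne f).series_unique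
    (by rw [h0]; exact HasExp.zero))
  obtain ⟨f2, hf2', hexp2, hdiv⟩ :=
    ES.exists_conj_form haux hNM galStable_gammaOne ha hτ (isTwist_sq_weight_one f)
  have hf20 : (f : ℍ → ℂ) ^ 2 ≠ 0 := by
    obtain ⟨z, hz⟩ := Function.ne_iff.1 hf0
    exact fun h0 => pow_ne_zero 2 hz (congrFun h0 z)
  obtain ⟨hf2'0, hord⟩ := hdiv hf20 2 fun z => by
    obtain ⟨j, hj⟩ := ENat.ne_top_iff_exists.1 (ES.vanishOrd_ne_top (CuspFormClass.holo f) hf0 z)
    exact ⟨j, by rw [ES.vanishOrd_pow (CuspFormClass.holo f), ← hj, nsmul_eq_mul]; push_cast; ring⟩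
  obtain ⟨g, hg, hgn⟩ := ES.exists_root hf2'.mdiff hf2'0 two_pos hord
  have hfM : HasExp M (f : ℍ → ℂ) (A.expand M hM0) := hasExp_iff_expand.2 (hasExp_serOne f)
  have h1 : HasExp M (fun z => g z ^ 2) (B.expand M hM0 ^ 2) := by
    have h := hexp2 1 1 (GalRel.one _) (HahnSeries.ofPowerSeries ℤ ℂ (A.expand M hM0 ^ 2)) (by
      rw [SlashAction.slash_one]; exact HasLExp.of_exp (hfM.pow 2))
    rw [SlashAction.slash_one, ES.mapSer_ofPowerSeries, map_pow, PowerSeries.map_expand,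
      ← hgn] at h
    exact ES.hasExp_of_hasLExp_ps h
  obtain ⟨ω, hω2, hω⟩ := ES.exists_exp_of_pow hg two_pos (hexp0 hB0) h1
  have hω0 : ω ≠ 0 := fun h => by simp [h] at hω2
  set v : ℍ → ℂ := ω⁻¹ • g with hvdef
  have hv2 : v ^ 2 = f2 := by rw [hvdef, smul_pow, hgn, inv_pow, hω2, inv_one, one_smul]
  have hvM : HasExp M v (B.expand M hM0) := by
    have h := (hω.smul ω⁻¹).congr_fun (g := v) fun z => by simp [hvdef]
    rwa [← mul_assoc, ← map_mul, inv_mul_cancel₀ hω0, map_one, one_mul] at h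
  have hv : HasExp 1 v B := hasExp_iff_expand.1 hvM
  exact ⟨v, f2, hf2', hexp2, hg.const_smul _, hv2, hv,
    fun h0 => hB0 (hv.series_unique (by rw [h0]; exact HasExp.zero))⟩

omit [NeZero N] in
/-- A square root of a form of weight two is invariant up to sign. -/
private theorem slash_eq_or_eq_neg {v f2 : ℍ → ℂ}
    (hf2 : IsTwist (Gamma1 N) ((2 * 1 : ℕ) : ℤ) 1 f2) (hvmd : MDiff v) (hv2 : v ^ 2 = f2)
    (hv0 : v ≠ 0) {γ : SL(2, ℤ)} (hγ : γ ∈ Gamma1 N) :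
    v ∣[(1 : ℤ)] γ = v ∨ v ∣[(1 : ℤ)] γ = -v := by
  have hw : ((2 * 1 : ℕ) : ℤ) = ((2 : ℕ) : ℤ) * 1 := by norm_num
  obtain ⟨c, hc2, hc⟩ := ES.exists_eq_const_mul_of_pow_eq (f := v ∣[(1 : ℤ)] γ)
    (hvmd.slash _ _) hvmd two_pos hv0 (by
      rw [← ES.slash_pow, hv2, ← hw, hf2.slash ⟨γ, hγ⟩]
      funext z; simp)
  have hc' : (c : ℂ) = 1 ∨ (c : ℂ) = -1 := sq_eq_one_iff.1 (by
    rw [← Units.val_pow_eq_pow_val, hc2, Units.val_one])
  rcases hc' with h | h
  · exact Or.inl (funext fun z => by rw [hc, h, one_mul])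
  · exact Or.inr (funext fun z => by rw [hc, h, neg_one_mul, Pi.neg_apply])

/-- The sign is trivial on `Γ₁(N) ∩ Γ(3)`. -/
private theorem slash_eq_of_mem_auxGroup (f : CuspForm (Gamma1 N) 1) {τ : ℂ ≃+* ℂ} {a : ℕ}
    [NeZero (3 * N)] [NeZero (12 * (3 * N))] (ha : IsUnit (a : ZMod (12 * (3 * N))))
    (hτ : τ (ES.zetaC (12 * (3 * N))) = ES.zetaC (12 * (3 * N)) ^ a) {v : ℍ → ℂ}
    (hv : HasExp 1 v ((serOne f).map (τ : ℂ →+* ℂ))) (hv0 : v ≠ 0)
    (hsign : ∀ γ ∈ Gamma1 N, v ∣[(1 : ℤ)] γ = v ∨ v ∣[(1 : ℤ)] γ = -v)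
    {γ : SL(2, ℤ)} (hγ : γ ∈ auxGroup N) : v ∣[(1 : ℤ)] γ = v := by
  have hw' : ((2 * 1 : ℕ) : ℤ) = (2 : ℤ) := by norm_num
  set A := serOne f with hA
  set B : PowerSeries ℂ := A.map (τ : ℂ →+* ℂ) with hB
  have hB0 : B ≠ 0 := fun h0 => hv0 (hv.eq_of_series (by rw [h0]; exact HasExp.zero))
  obtain ⟨c, hc0, hc⟩ := exists_hexF_series
  set C : PowerSeries ℂ := c.map (Int.castRingHom ℂ) with hC
  have hC0 : C ≠ 0 := fun h0 => by
    have e := congrArg PowerSeries.constantCoeff h0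
    rw [hC, ← PowerSeries.coeff_zero_eq_constantCoeff_apply, PowerSeries.coeff_map,
      PowerSeries.coeff_zero_eq_constantCoeff_apply, hc0, map_one, map_zero] at e
    exact one_ne_zero e
  have hCτ : C.map (τ : ℂ →+* ℂ) = C := by
    ext e; simp [hC]
  have hfE : IsTwist (auxGroup N) ((2 * 1 : ℕ) : ℤ) 1 ((f : ℍ → ℂ) * hexF) := by
    refine ⟨(CuspFormClass.holo f).mul hexF_mdiff, fun γ => ?_, fun γ => ?_⟩
    · rw [hw', mul_hexF_slash f γ.2]
      funext z; simp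
    · rw [hw']; exact (mul_hexF_zero f γ).boundedAtFilter
  obtain ⟨F, hF, hexpF, -⟩ := ES.exists_conj_form (ES.auxLevel12 (3 * N))
    (dvd_mul_left (3 * N) 12) galStable_aux ha hτ hfE
  have h := hexpF 1 1 (GalRel.one _)
    (HahnSeries.ofPowerSeries ℤ ℂ ((A * C).expand (12 * (3 * N)) (NeZero.ne _))) (by
      rw [SlashAction.slash_one]
      exact HasLExp.of_exp (hasExp_iff_expand.2 ((hasExp_serOne f).mul hc)))
  rw [SlashAction.slash_one, ES.mapSer_ofPowerSeries, PowerSeries.map_expand, map_mul, hCτ] at h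
  have hFv : F = v * hexF := (ES.hasExp_of_hasLExp_ps h).eq_of_series
    (hasExp_iff_expand.2 (hv.mul hc))
  refine (hsign γ hγ.1).resolve_right fun e => ?_
  have h3 := hF.slash ⟨γ, hγ⟩
  rw [hw', hFv, show (2 : ℤ) = 1 + 1 from rfl, ModularForm.mul_slash_SL2, e,
    hexF_slash_aux hγ] at h3
  have h4 : v * hexF = 0 := funext fun z => by
    have := congrFun h3 z
    simp only [Pi.mul_apply, Pi.neg_apply, MonoidHom.one_apply, Units.val_one, one_mul] at this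
    simp only [Pi.mul_apply, Pi.zero_apply]
    linear_combination -this / 2
  exact mul_ne_zero hB0 hC0 ((hv.mul hc).series_unique (by rw [h4]; exact HasExp.zero))

omit [NeZero N] in
/-- Invariance under `Γ₁(N) ∩ Γ(3)`, periodicity and the sign give invariance under `Γ₁(N)`. -/
private theorem slash_eq_of_mem_gammaOne {v : ℍ → ℂ} {B : PowerSeries ℂ} (hv : HasExp 1 v B)
    (hv0 : v ≠ 0) (hsign : ∀ γ ∈ Gamma1 N, v ∣[(1 : ℤ)] γ = v ∨ v ∣[(1 : ℤ)] γ = -v)
    (haux : ∀ γ ∈ auxGroup N, v ∣[(1 : ℤ)] γ = v) {γ : SL(2, ℤ)} (hγ : γ ∈ Gamma1 N) :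
    v ∣[(1 : ℤ)] γ = v := by
  let H : Subgroup SL(2, ℤ) :=
    { carrier := {γ | v ∣[(1 : ℤ)] γ = v}
      one_mem' := SlashAction.slash_one _ _
      mul_mem' := fun {x y} hx hy => by
        show v ∣[(1 : ℤ)] (x * y) = v
        rw [SlashAction.slash_mul, show v ∣[(1 : ℤ)] x = v from hx]
        exact hy
      inv_mem' := fun {x} hx => by
        show v ∣[(1 : ℤ)] x⁻¹ = v
        conv_lhs => rw [← show v ∣[(1 : ℤ)] x = v from hx]
        rw [← SlashAction.slash_mul, mul_inv_cancel, SlashAction.slash_one] }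
  have hT : ModularGroup.T ∈ H := by
    show v ∣[(1 : ℤ)] ModularGroup.T = v
    rw [← zpow_one ModularGroup.T, ES.slash_T_zpow]
    funext z
    have h2 := hv (((1 : ℕ) : ℝ) +ᵥ z)
    rw [ES.qm_vadd] at h2
    simpa using h2.unique (hv z)
  have hL : lowGen N 1 ∈ H := by
    show v ∣[(1 : ℤ)] lowGen N 1 = v
    refine (hsign _ (lowGen_mem 1)).resolve_right fun e => ?_
    have h3 : lowGen N 3 ∈ auxGroup N := by
      refine ⟨lowGen_mem 3, ?_⟩
      show _ ∈ Gamma 3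
      rw [Gamma_mem]
      simp [coe_lowGen]
      exact Or.inl (by decide)
    have h4 : v ∣[(1 : ℤ)] lowGen N 3 = v := haux _ h3
    rw [show lowGen N 3 = lowGen N 1 * lowGen N 1 * lowGen N 1 by
      rw [← lowGen_succ, ← lowGen_succ], SlashAction.slash_mul, SlashAction.slash_mul, e,
      SlashAction.neg_slash, e, neg_neg, e] at h4
    refine hv0 (funext fun z => ?_)
    have := congrFun h4 z
    simp only [Pi.neg_apply] at this
    simp only [Pi.zero_apply]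
    linear_combination -this / 2
  exact gammaOne_le hT hL (fun γ hγ => haux γ hγ) hγ

/-- The square root of the conjugate square vanishes at every cusp. -/
private theorem isZeroAtImInfty_slash_sqrt (f : CuspForm (Gamma1 N) 1) {τ : ℂ ≃+* ℂ} {M : ℕ}
    [NeZero M] (hNM : N ∣ M) {a : ℕ} (ha : IsUnit (a : ZMod M)) {v f2 : ℍ → ℂ}
    (hexp2 : ∀ γ γ', GalRel (a : ZMod M) γ γ' → ∀ s,
      HasLExp M (((f : ℍ → ℂ) ^ 2) ∣[((2 * 1 : ℕ) : ℤ)] γ) s →
      HasLExp M (f2 ∣[((2 * 1 : ℕ) : ℤ)] γ') (mapSer (τ : ℂ →+* ℂ) s))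
    (hv2 : v ^ 2 = f2) (δ : SL(2, ℤ)) : IsZeroAtImInfty (v ∣[(1 : ℤ)] δ) := by
  have hw : ((2 * 1 : ℕ) : ℤ) = ((2 : ℕ) : ℤ) * 1 := by norm_num
  have hf2 := isTwist_sq_weight_one f
  obtain ⟨γ, hr⟩ := GalRel.exists_left ha δ
  have hΓ : Gamma M ≤ Gamma1 N := (ES.gamma_le_of_dvd hNM).trans gamma_le_gammaOne
  have hs := HasExp.exists_of_bounded (M := M) (ES.periodic_slash_of_trivial hΓ hf2 γ)
    (hf2.mdiff.slash _ _) (hf2.bdd γ)
  have h0 : PowerSeries.constantCoeff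
      (qExpansion (M : ℝ) (((f : ℍ → ℂ) ^ 2) ∣[((2 * 1 : ℕ) : ℤ)] γ)) = 0 := by
    refine tendsto_nhds_unique hs.tendsto_atImInfty ?_
    rw [hw, ES.slash_pow]
    have := (show Tendsto _ _ _ from CuspFormClass.zero_at_infty_slash f γ).pow 2
    rwa [zero_pow two_ne_zero] at this
  have h2 := hexp2 γ δ hr _ (HasLExp.of_exp hs)
  rw [ES.mapSer_ofPowerSeries] at h2
  have h3 := (ES.hasExp_of_hasLExp_ps h2).tendsto_atImInfty
  rw [← PowerSeries.coeff_zero_eq_constantCoeff_apply, PowerSeries.coeff_map,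
    PowerSeries.coeff_zero_eq_constantCoeff_apply, h0, map_zero, ← hv2, hw, ES.slash_pow] at h3
  have h4 := h3.norm.sqrt
  rw [norm_zero, Real.sqrt_zero] at h4
  refine tendsto_zero_iff_norm_tendsto_zero.2 (h4.congr fun z => ?_)
  rw [Pi.pow_apply, norm_pow, Real.sqrt_sq (norm_nonneg _)]

/-- An automorphism of `ℂ` carries the coefficients of a weight one cusp form to those of
another. -/
theorem exists_conjugate (f : CuspForm (Gamma1 N) 1) (hf : serOne f ≠ 0) (τ : ℂ ≃+* ℂ) :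
    ∃ f' : CuspForm (Gamma1 N) 1,
      ∀ n, ModularFormClass.qCoeff f' n = τ (ModularFormClass.qCoeff f n) := by
  have : NeZero (3 * N) := ⟨mul_ne_zero three_ne_zero (NeZero.ne N)⟩
  have : NeZero (12 * (3 * N)) := ⟨mul_ne_zero (by norm_num) (NeZero.ne _)⟩
  obtain ⟨a, ha, hτ⟩ := ES.exists_unit_exponent (12 * (3 * N)) τ
  have hNM : N ∣ 12 * (3 * N) := ⟨36, by ring⟩
  -- the square root
  obtain ⟨v, f2, hf2', hexp2, hvmd, hv2, hv, hv0⟩ :=
    exists_sqrt_conj_sq f hf (ES.auxLevel12 (3 * N)) hNM ha hτ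
  -- invariance
  have hsign : ∀ γ ∈ Gamma1 N, v ∣[(1 : ℤ)] γ = v ∨ v ∣[(1 : ℤ)] γ = -v :=
    fun γ hγ => slash_eq_or_eq_neg hf2' hvmd hv2 hv0 hγ
  have hinv : ∀ γ ∈ Gamma1 N, v ∣[(1 : ℤ)] γ = v := fun γ hγ => slash_eq_of_mem_gammaOne hv hv0
    hsign (fun δ hδ => slash_eq_of_mem_auxGroup f ha hτ hv hv0 hsign hδ) hγ
  let f' : CuspForm (Gamma1 N) 1 :=
    { toFun := v
      slash_action_eq' := by
        rintro _ ⟨γ, hγ, rfl⟩
        exact hinv γ hγ
      holo' := hvmd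
      zero_at_cusps' := fun {c} hc' => by
        rw [Subgroup.IsArithmetic.isCusp_iff_isCusp_SL2Z] at hc'
        obtain ⟨δ, rfl⟩ := isCusp_SL2Z_iff'.mp hc'
        rw [OnePoint.isZeroAt_iff_exists_SL2Z (isCusp_SL2Z_iff'.mpr ⟨δ, rfl⟩)]
        exact ⟨δ, rfl, isZeroAtImInfty_slash_sqrt f hNM ha hexp2 hv2 δ⟩ }
  refine ⟨f', fun n => ?_⟩
  have e : serOne f' = (serOne f).map (τ : ℂ →+* ℂ) := (hasExp_serOne f').series_unique hv
  rw [← coeff_serOne, ← coeff_serOne, e, PowerSeries.coeff_map]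
  rfl

end FermatAgent.DS

end
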