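import Fermat.Agent.DS.Field.Series
import Fermat.Agent.LT.Mod3.Bound

/-!
# The coefficients span a finitely generated group

The product with the hexagonal theta series is a weight two form, whose coefficients lie in a
finitely generated group of periods.
-/

set_option autoImplicit false
set_option maxSynthPendingDepth 4

noncomputable section

open UpperHalfPlane CongruenceSubgroup Filter Topology
open scoped MatrixGroups ModularForm Manifold Pointwise OnePoint

namespace FermatAgent.DS

open FermatAgent.ES (HasExp qm)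
open FermatAgent.LT.Mod3 (hexF hexF_mdiff gammaGL formCoeff formCoeff_unique exists_coeff_lattice)

variable {N : ℕ} [NeZero N]

/-- The product with the theta series, as a weight two form. -/
def auxForm (f : CuspForm (Gamma1 N) 1) : CuspForm (gammaGL (3 * N)) 2 where
  toFun := (f : ℍ → ℂ) * hexF
  slash_action_eq' := by
    rintro _ ⟨γ, hγ, rfl⟩
    exact mul_hexF_slash f ⟨gamma_le_gammaOne (ES.gamma_le_of_dvd (dvd_mul_left N 3) hγ),
      ES.gamma_le_of_dvd (dvd_mul_right 3 N) hγ⟩
  holo' := (CuspFormClass.holo f).mul hexF_mdiff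
  zero_at_cusps' := fun {c} hc => by
    rw [Subgroup.IsArithmetic.isCusp_iff_isCusp_SL2Z] at hc
    obtain ⟨δ, rfl⟩ := isCusp_SL2Z_iff'.mp hc
    rw [OnePoint.isZeroAt_iff_exists_SL2Z (isCusp_SL2Z_iff'.mpr ⟨δ, rfl⟩)]
    exact ⟨δ, rfl, mul_hexF_zero f δ⟩

theorem exists_fg_coeff (f : CuspForm (Gamma1 N) 1) :
    ∃ W : Submodule ℤ ℂ, W.FG ∧ ∀ n, ModularFormClass.qCoeff f n ∈ W := by
  have : NeZero (3 * N) := ⟨mul_ne_zero three_ne_zero (NeZero.ne N)⟩
  obtain ⟨L, hL, hn⟩ := exists_coeff_lattice (N := 3 * N)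
  set F := auxForm f
  set ev : (CuspForm (gammaGL (3 * N)) 2 →ₗ[ℂ] ℂ) →ₗ[ℤ] ℂ :=
    (LinearMap.applyₗ F).restrictScalars ℤ
  refine ⟨L.map ev, hL.map ev, fun n => ?_⟩
  obtain ⟨c, hc0, hc⟩ := exists_hexF_series
  set G : PowerSeries ℂ := (serOne f).expand (3 * N) (NeZero.ne _) *
    ((c.map (Int.castRingHom ℂ)).expand (3 * N) (NeZero.ne _))
  have hG : HasExp (3 * N) (⇑F) G :=
    (hasExp_iff_expand.2 (hasExp_serOne f)).mul (hasExp_iff_expand.2 hc)
  have hGm : ∀ i, PowerSeries.coeff i G ∈ L.map ev := fun i =>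
    ⟨formCoeff i, hn i, formCoeff_unique F (fun τ => hG τ) i⟩
  obtain ⟨d, hd⟩ : ∃ d, c * d = 1 :=
    (PowerSeries.isUnit_iff_constantCoeff.2 (by rw [hc0]; exact isUnit_one)).exists_right_inv
  have e : (serOne f).expand (3 * N) (NeZero.ne _) =
      G * (d.map (Int.castRingHom ℂ)).expand (3 * N) (NeZero.ne _) := by
    rw [show G = _ from rfl, mul_assoc, ← map_mul (PowerSeries.expand (3 * N) (NeZero.ne _)),
      ← map_mul (PowerSeries.map (Int.castRingHom ℂ)), hd, map_one, map_one, mul_one]
  have e2 := congrArg (PowerSeries.coeff (3 * N * n)) e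
  rw [PowerSeries.coeff_expand_mul, coeff_serOne] at e2
  rw [e2, PowerSeries.coeff_mul]
  refine Submodule.sum_mem _ fun x _ => ?_
  rw [← PowerSeries.map_expand, PowerSeries.coeff_map, eq_intCast,
    mul_comm (PowerSeries.coeff x.1 G), ← zsmul_eq_mul]
  exact Submodule.smul_mem _ _ (hGm _)

/-- An algebra whose generators preserve a submodule containing `1` is contained in it. -/
theorem adjoin_le_of_stable {R : Type} [CommRing R] [Algebra R ℂ] {V : Submodule R ℂ}
    (h1 : (1 : ℂ) ∈ V) {s : Set ℂ} (hs : ∀ x ∈ s, ∀ w ∈ V, x * w ∈ V) :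
    (Algebra.adjoin R s).toSubmodule ≤ V := by
  intro x hx
  suffices ∀ w ∈ V, x * w ∈ V by simpa using this 1 h1
  induction hx using Algebra.adjoin_induction with
  | mem x hx => exact hs x hx
  | algebraMap r => intro w hw; rw [← Algebra.smul_def]; exact V.smul_mem r hw
  | add x y _ _ hx hy => intro w hw; rw [add_mul]; exact V.add_mem (hx w hw) (hy w hw)
  | mul x y _ _ hx hy => intro w hw; rw [mul_assoc]; exact hx _ (hy w hw)

variable {ε : DirichletCharacter ℂ N} {f : CuspForm (Gamma1 N) 1}

/-- The eigenvalues at good primes. -/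
def goodVals (f : CuspForm (Gamma1 N) 1) : Set ℂ :=
  {x | ∃ p, IsGood N p ∧ x = ModularFormClass.qCoeff f p}

theorem exists_stable (h : IsEigenOne N ε f) :
    ∃ V : Submodule ℤ ℂ, V.FG ∧ (1 : ℂ) ∈ V ∧ ∀ x ∈ goodVals f, ∀ w ∈ V, x * w ∈ V := by
  obtain ⟨W, hW, ha⟩ := exists_fg_coeff f
  set gen : ZMod N × ℕ → ℂ := fun x => ε x.1 * ModularFormClass.qCoeff f x.2
  refine ⟨Submodule.span ℤ (Set.range gen), ?_, Submodule.subset_span ⟨(1, 1), by simp [gen, h.1]⟩,
    ?_⟩
  · refine Submodule.FG.of_le (((Submodule.fg_span (Set.finite_range fun u => ε u)).mul hW))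
      (Submodule.span_le.2 ?_)
    rintro _ ⟨⟨u, n⟩, rfl⟩
    exact Submodule.mul_mem_mul (Submodule.subset_span ⟨u, rfl⟩) (ha n)
  · rintro x ⟨p, ⟨hp, hpN⟩, rfl⟩ w hw
    induction hw using Submodule.span_induction with
    | mem z hz =>
      obtain ⟨⟨u, n⟩, rfl⟩ := hz
      have e : ModularFormClass.qCoeff f p * gen (u, n) = gen (u, p * n) +
          if p ∣ n then gen (u * p, n / p) else 0 := by
        have := h.2 p hp hpN n
        simp only [gen, map_mul]
        split_ifs with hd
        · rw [if_pos hd] at this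
          linear_combination -(ε u) * this
        · rw [if_neg hd] at this
          linear_combination -(ε u) * this
      rw [e]
      refine Submodule.add_mem _ (Submodule.subset_span ⟨_, rfl⟩) ?_
      split_ifs with hd
      · exact Submodule.subset_span ⟨_, rfl⟩
      · exact Submodule.zero_mem _
    | zero => rw [mul_zero]; exact Submodule.zero_mem _
    | add y z _ _ hy hz => rw [mul_add]; exact Submodule.add_mem _ hy hz
    | smul r y _ hy => rw [mul_smul_comm]; exact Submodule.smul_mem _ r hy

/-- The eigenvalues at good primes are algebraic integers. -/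
theorem isIntegral_coeff (h : IsEigenOne N ε f) {p : ℕ} (hp : IsGood N p) :
    IsIntegral ℤ (ModularFormClass.qCoeff f p) := by
  obtain ⟨V, hV, h1, hst⟩ := exists_stable h
  exact IsIntegral.of_mem_of_fg _ (Submodule.FG.of_le hV (adjoin_le_of_stable h1 hst)) _
    (Algebra.subset_adjoin ⟨p, hp, rfl⟩)

/-- The field generated by the eigenvalues at good primes. -/
def coeffField (f : CuspForm (Gamma1 N) 1) : IntermediateField ℚ ℂ :=
  IntermediateField.adjoin ℚ (goodVals f)

omit [NeZero N] in
/-- The eigenvalues at good primes lie in the field they generate. -/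
theorem mem_coeffField {p : ℕ} (hp : IsGood N p) :
    ModularFormClass.qCoeff f p ∈ coeffField f :=
  IntermediateField.subset_adjoin ℚ _ ⟨p, hp, rfl⟩

/-- The field generated by the eigenvalues at good primes is a number field. -/
theorem finite_coeffField (h : IsEigenOne N ε f) : FiniteDimensional ℚ (coeffField f) := by
  obtain ⟨V, ⟨S, hS⟩, h1, hst⟩ := exists_stable h
  set U : Submodule ℚ ℂ := Submodule.span ℚ (V : Set ℂ) with hU
  have hUfin : FiniteDimensional ℚ U := by
    have e : U = Submodule.span ℚ (S : Set ℂ) := by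
      rw [hU, ← hS, Submodule.span_span_of_tower]
    rw [e]
    exact Module.Finite.span_of_finite ℚ S.finite_toSet
  have hle : (Algebra.adjoin ℚ (goodVals f)).toSubmodule ≤ U := by
    refine adjoin_le_of_stable (Submodule.subset_span h1) fun x hx w hw => ?_
    induction hw using Submodule.span_induction with
    | mem z hz => exact Submodule.subset_span (hst x hx z hz)
    | zero => rw [mul_zero]; exact Submodule.zero_mem _
    | add y z _ _ hy hz => rw [mul_add]; exact Submodule.add_mem _ hy hz
    | smul r y _ hy => rw [mul_smul_comm]; exact Submodule.smul_mem _ r hy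
  have hEq : (coeffField f).toSubalgebra = Algebra.adjoin ℚ (goodVals f) :=
    IntermediateField.adjoin_toSubalgebra_of_isAlgebraic fun x hx => by
      obtain ⟨p, hp, rfl⟩ := hx
      exact (isIntegral_coeff h hp).tower_top.isAlgebraic
  exact Submodule.finiteDimensional_of_le (S₁ := (coeffField f).toSubalgebra.toSubmodule) (S₂ := U)
    (by rw [hEq]; exact hle)

end FermatAgent.DS

end
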