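import Fermat.Agent.DS.Diamond
import Fermat.Agent.LT.Mod3.Weight
import Fermat.Agent.ES.Forms.PowExp
import Mathlib.RingTheory.PowerSeries.Expand

/-!
# Expansions used for the field of coefficients
-/

set_option autoImplicit false

noncomputable section

open UpperHalfPlane CongruenceSubgroup Filter Topology
open scoped MatrixGroups ModularForm Manifold

namespace FermatAgent.DS

open FermatAgent.ES (HasExp qm)
open FermatAgent.LT.Mod3 (hexF hexF_isPer hexF_coeff hexF_slash_eq_self hexF_bdd tendsto_hexE_scale)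

variable {M : ℕ} [NeZero M]

omit [NeZero M] in
theorem qm_one_eq (hM : M ≠ 0) (τ : ℍ) : qm 1 τ = qm M τ ^ M := by
  rw [ES.qm_eq, ES.qm_eq, ← Complex.exp_nat_mul]
  congr 1
  have : (M : ℂ) ≠ 0 := Nat.cast_ne_zero.2 hM
  field_simp
  push_cast
  ring

/-- A series in the variable of width one is an expansion at width `M` after `X ↦ X ^ M`. -/
theorem hasExp_iff_expand {f : ℍ → ℂ} {c : PowerSeries ℂ} :
    HasExp M f (c.expand M (NeZero.ne M)) ↔ HasExp 1 f c := by
  refine forall_congr' fun τ => ?_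
  have hinj : Function.Injective fun e : ℕ => M * e := mul_right_injective₀ (NeZero.ne M)
  rw [← hinj.hasSum_iff (fun e he => ?_)]
  · refine iff_of_eq (congrArg (fun g => HasSum g (f τ)) (funext fun e => ?_))
    simp only [Function.comp_apply, PowerSeries.coeff_expand_mul, qm_one_eq (NeZero.ne M) τ,
      ← pow_mul]
  · have hd : ¬ M ∣ e := fun ⟨k, hk⟩ => he ⟨k, hk.symm⟩
    simp [PowerSeries.coeff_expand_of_not_dvd M (NeZero.ne M) c hd]

/-- `hexF` has an integral expansion with constant term one. -/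
theorem exists_hexF_series :
    ∃ c : PowerSeries ℤ, PowerSeries.constantCoeff c = 1 ∧
      HasExp 1 hexF (c.map (Int.castRingHom ℂ)) := by
  choose z hz _ using hexF_coeff (h := 1) one_pos
  have hP := hexF_isPer 1
  have h0 := HasExp.exists_of_bounded (M := 1) hP.per hP.mdiff hP.bdd
  have e : qExpansion ((1 : ℕ) : ℝ) hexF = (PowerSeries.mk z).map (Int.castRingHom ℂ) := by
    ext n
    rw [PowerSeries.coeff_map, PowerSeries.coeff_mk]
    exact hz n
  rw [e] at h0
  refine ⟨PowerSeries.mk z, ?_, h0⟩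
  have h1 : Tendsto hexF atImInfty (𝓝 1) :=
    (tendsto_hexE_scale one_pos).congr fun τ => by simp [hexF]
  have h2 := tendsto_nhds_unique h0.tendsto_atImInfty h1
  rw [← PowerSeries.coeff_zero_eq_constantCoeff_apply] at h2 ⊢
  rw [PowerSeries.coeff_map] at h2
  exact Int.cast_injective (α := ℂ) (by simpa using h2)

variable {N : ℕ} [NeZero N]

/-- The series at infinity, in the variable of width one. -/
def serOne (f : CuspForm (Gamma1 N) 1) : PowerSeries ℂ := qExpansion ((1 : ℕ) : ℝ) f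

omit [NeZero N] in
/-- The series at infinity of a form has the `q`-coefficients as coefficients. -/
theorem coeff_serOne (f : CuspForm (Gamma1 N) 1) (n : ℕ) :
    PowerSeries.coeff n (serOne f) = ModularFormClass.qCoeff f n := by
  simp [serOne, ModularFormClass.qCoeff]

/-- A form on `Γ₁(N)` is the sum of its series at infinity. -/
theorem hasExp_serOne (f : CuspForm (Gamma1 N) 1) : HasExp 1 (f : ℍ → ℂ) (serOne f) := by
  refine HasExp.exists_of_bounded ?_ (CuspFormClass.holo f) ?_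
  · have := periodic_slash (f := f) (one_mem (Gamma0 N))
    rw [SlashAction.slash_one] at this
    rwa [Nat.cast_one]
  · have := (CuspFormClass.zero_at_infty_slash f 1).boundedAtFilter
    rwa [SlashAction.slash_one] at this

section

omit [NeZero N]

/-- `Γ(N)` is contained in `Γ₁(N)`. -/
theorem gamma_le_gammaOne : Gamma N ≤ Gamma1 N := fun γ hγ =>
  (Gamma1_mem N γ).2 ⟨(Gamma_mem.1 hγ).1, (Gamma_mem.1 hγ).2.2.2, (Gamma_mem.1 hγ).2.2.1⟩

/-- `Γ₁(N) ∩ Γ(3)`. -/
def auxGroup (N : ℕ) : Subgroup SL(2, ℤ) := Gamma1 N ⊓ Gamma 3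

/-- `hexF` is invariant in weight one under `Γ₁(N) ∩ Γ(3)`. -/
theorem hexF_slash_aux {γ : SL(2, ℤ)} (hγ : γ ∈ auxGroup N) : hexF ∣[(1 : ℤ)] γ = hexF :=
  hexF_slash_eq_self (dvd_refl 3) hγ.2

/-- A weight one cusp form on `Γ₁(N)` is invariant under `Γ₁(N)`. -/
theorem slash_eq_self' (f : CuspForm (Gamma1 N) 1) {γ : SL(2, ℤ)} (hγ : γ ∈ Gamma1 N) :
    (f : ℍ → ℂ) ∣[(1 : ℤ)] γ = f := by
  rw [ModularForm.SL_slash]; exact slash_eq_self hγ

/-- The product of a form with `hexF` is invariant in weight two under `Γ₁(N) ∩ Γ(3)`. -/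
theorem mul_hexF_slash (f : CuspForm (Gamma1 N) 1) {γ : SL(2, ℤ)} (hγ : γ ∈ auxGroup N) :
    ((f : ℍ → ℂ) * hexF) ∣[(2 : ℤ)] γ = (f : ℍ → ℂ) * hexF := by
  rw [show (2 : ℤ) = 1 + 1 from rfl, ModularForm.mul_slash_SL2, slash_eq_self' f hγ.1,
    hexF_slash_aux hγ]

end

/-- The product of a cusp form with `hexF` vanishes at every cusp. -/
theorem mul_hexF_zero (f : CuspForm (Gamma1 N) 1) (δ : SL(2, ℤ)) :
    IsZeroAtImInfty (((f : ℍ → ℂ) * hexF) ∣[(2 : ℤ)] δ) := by
  rw [show (2 : ℤ) = 1 + 1 from rfl, ModularForm.mul_slash_SL2]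
  exact ZeroAtFilter.mul_boundedAtFilter (CuspFormClass.zero_at_infty_slash _ δ) (hexF_bdd δ)

end FermatAgent.DS

end
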